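/-
T1B brick 590 KUM-U2 (helper6), part (A): the inputs of the Hecke correspondence
`heckeOperatorAlong ℚbar N q = α_* β^*` at a prime `q ∣ N` (the `U_q`-type operator).

* `psi_mul_prime_dvd : ψ(N q) = ψ(N) q` for a prime `q ∣ N`;
* `relfinrank_alpha_dvd / relfinrank_beta_dvd : [F_{Nq} : F_N] = [F_{Nq} : V(F_N)] = q`;
* `finrankAlong_alpha_dvd / finrankAlong_beta_dvd`, finiteness, integrality;
* `heckeInputsAlong_bar_dvd : HeckeInputsAlong ℚbar N q`.

Consequently the Prelude's `heckeOperatorBar N ⟨q, _⟩` is the genuine correspondence for `q ∣ N`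
as well (`ES/HECKE/InputsFinal15` treats `ℓ ∤ N`).
-/
import Mathlib
import Fermat.Agent.ES.HECKE.InputsFinal15

set_option autoImplicit false
set_option linter.style.haveILetI false

noncomputable section

open HahnSeries ModularCurve IntermediateField AlgebraicCurve

namespace Fermat.Agent.T1B.KumU6.Inputs

open Fermat.Agent.IG Fermat.Agent.RED.PUR Fermat.Agent.X0 Fermat.Agent.RED.TOP
open Fermat.Agent.ES.HECKE Fermat.Agent.ES.HECKE.InputsMain19

/-! ### `ψ(N q) = q ψ(N)` -/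

theorem psi_mul_prime_dvd (N q : ℕ) (hN : N ≠ 0) (hq : q.Prime) (hqN : q ∣ N) :
    dedekindPsi (N * q) = dedekindPsi N * q := by
  obtain ⟨e, m, hm, hNe⟩ := Nat.exists_eq_pow_mul_and_not_dvd hN q hq.ne_one
  have he : e ≠ 0 := by
    rintro rfl
    rw [pow_zero, one_mul] at hNe
    exact hm (hNe ▸ hqN)
  obtain ⟨k, rfl⟩ : ∃ k, e = k + 1 := ⟨e - 1, by omega⟩
  have hcop : ∀ r : ℕ, (q ^ r).Coprime m := fun r =>
    Nat.Coprime.pow_left r ((Nat.Prime.coprime_iff_not_dvd hq).mpr hm)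
  have e1 : N * q = q ^ (k + 1 + 1) * m := by rw [hNe]; ring
  rw [e1, hNe, GNPsi.gnp_dedekindPsi_mul (hcop _), GNPsi.gnp_dedekindPsi_mul (hcop _),
    GNPsi.gnp_dedekindPsi_prime_pow hq, GNPsi.gnp_dedekindPsi_prime_pow hq]
  ring

/-! ### degrees -/

variable (κ : Type) [Field κ] [CharZero κ] (N q : ℕ) [NeZero N] [NeZero q]

/-- **`[F_{Nq} : F_N] = q`** for a prime `q ∣ N`. -/
theorem relfinrank_alpha_dvd (hq : q.Prime) (hqN : q ∣ N) :
    relfinrank (modularFunctionFieldFullC κ N) (modularFunctionFieldFullC κ (N * q)) = q := by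
  have h1 := DegBaseChange25.relfinrank_fullC_eq_psi_of_charZero κ N
  have h2 := DegBaseChange25.relfinrank_fullC_eq_psi_of_charZero κ (N * q)
  have hmul := relfinrank_mul_relfinrank (DegreeL25.simple_le_fullC κ N)
    (full_degeneracyC_le κ (dvd_mul_right N q))
  rw [h1, h2, psi_mul_prime_dvd N q (NeZero.ne N) hq hqN] at hmul
  exact Nat.eq_of_mul_eq_mul_left (GNPsi.gnp_dedekindPsi_pos (NeZero.ne N)) hmul

/-- **`[F_{Nq} : V(F_N)] = q`** for a prime `q ∣ N`, `V = (q ↦ q^q)`. -/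
theorem relfinrank_beta_dvd (hq : q.Prime) (hqN : q ∣ N) :
    relfinrank ((modularFunctionFieldFullC κ N).map (qExpandAlgHomC κ q))
      (modularFunctionFieldFullC κ (N * q)) = q := by
  have hψN := DegBaseChange25.relfinrank_fullC_eq_psi_of_charZero κ N
  have hψNq := DegBaseChange25.relfinrank_fullC_eq_psi_of_charZero κ (N * q)
  have hψpos := GNPsi.gnp_dedekindPsi_pos (NeZero.ne N)
  have hqκ : (q : κ) ≠ 0 := Nat.cast_ne_zero.mpr hq.ne_zero
  obtain ⟨⟨-, hleft⟩, ⟨-, hright⟩⟩ := PR.Main20.primeLevel q hq.two_le (AN.ModPoly3.p0 q hq)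
    AN.FormalJ10.p1 (AN.P2Final9.p2 q) κ hqκ
  have hA : κ⟮jqModC κ⟯ ≤ κ⟮jqModC κ⟯ ⊔ κ⟮qExpand κ q (jqModC κ)⟯ := le_sup_left
  have hAq : κ⟮qExpand κ q (jqModC κ)⟯ ≤ κ⟮jqModC κ⟯ ⊔ κ⟮qExpand κ q (jqModC κ)⟯ := le_sup_right
  have hjq : qExpand κ q (jqModC κ) ∈ modularFunctionFieldFullC κ (N * q) :=
    jqModCd_mem_full κ (N * q) (dvd_mul_left q N)
  have hC : κ⟮jqModC κ⟯ ⊔ κ⟮qExpand κ q (jqModC κ)⟯ ≤ modularFunctionFieldFullC κ (N * q) :=
    sup_le (DegreeL25.simple_le_fullC κ (N * q)) (adjoin_simple_le_iff.mpr hjq)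
  -- `[F_{Nq} : κ(j_q)] = [F_{Nq} : κ(j)] = ψ(N q)`
  have h1 := relfinrank_mul_relfinrank hA hC
  have h2 := relfinrank_mul_relfinrank hAq hC
  rw [hleft, hψNq] at h1
  rw [hright, h1, psi_mul_prime_dvd N q (NeZero.ne N) hq hqN] at h2
  -- `V(κ(j)) = κ(j_q) ≤ V(F_N) ≤ F_{Nq}`
  have hmapA : (κ⟮jqModC κ⟯).map (qExpandAlgHomC κ q) = κ⟮qExpand κ q (jqModC κ)⟯ := by
    rw [adjoin_map, Set.image_singleton, qExpandAlgHomC_apply]
  have hle1 : κ⟮qExpand κ q (jqModC κ)⟯ ≤
      (modularFunctionFieldFullC κ N).map (qExpandAlgHomC κ q) := by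
    rw [← hmapA]
    exact IntermediateField.map_mono _ (DegreeL25.simple_le_fullC κ N)
  have hle2 : (modularFunctionFieldFullC κ N).map (qExpandAlgHomC κ q) ≤
      modularFunctionFieldFullC κ (N * q) := full_degeneracyC_map_le κ N q
  have h3 : relfinrank κ⟮qExpand κ q (jqModC κ)⟯
      ((modularFunctionFieldFullC κ N).map (qExpandAlgHomC κ q)) = dedekindPsi N := by
    rw [← hmapA, relfinrank_map_map, hψN]
  have h4 := relfinrank_mul_relfinrank hle1 hle2
  rw [h3, ← h2] at h4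
  exact Nat.eq_of_mul_eq_mul_left hψpos h4

/-! ### the `Along` forms -/

section Along

variable (L : Type) [Field L] [Algebra ℚ L]

theorem finrankAlong_alpha_dvd (hq : q.Prime) (hqN : q ∣ N) :
    finrankAlong L (heckeAlphaBar L N q) = q := by
  have := AlongDegree25.charZero_of_algebraRat L
  rw [AlongDegree25.finrankAlong_eq_relfinrank _ _ (heckeAlphaBar L N q)
    (AlgHom.id L (LaurentSeries L)) (fun a => by rw [coe_heckeAlphaBar]; rfl),
    IntermediateField.map_id,
    DegBaseChange25.laurentBaseChange_full_eq, DegBaseChange25.laurentBaseChange_full_eq]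
  exact relfinrank_alpha_dvd L N q hq hqN

theorem finrankAlong_beta_dvd (hq : q.Prime) (hqN : q ∣ N) :
    finrankAlong L (heckeBetaBar L N q) = q := by
  have := AlongDegree25.charZero_of_algebraRat L
  rw [AlongDegree25.finrankAlong_eq_relfinrank _ _ (heckeBetaBar L N q) (qExpandAlgHomC L q)
    (fun a => by rw [coe_heckeBetaBar, qExpandAlgHomC_apply]),
    DegBaseChange25.laurentBaseChange_full_eq, DegBaseChange25.laurentBaseChange_full_eq]
  exact relfinrank_beta_dvd L N q hq hqN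

theorem finiteAlong_alpha_dvd (hq : q.Prime) (hqN : q ∣ N) :
    FiniteAlong L (heckeAlphaBar L N q) :=
  AlongDegree25.finiteAlong_of_finrankAlong_pos _
    (by rw [finrankAlong_alpha_dvd N q L hq hqN]; exact hq.pos)

theorem finiteAlong_beta_dvd (hq : q.Prime) (hqN : q ∣ N) :
    FiniteAlong L (heckeBetaBar L N q) :=
  AlongDegree25.finiteAlong_of_finrankAlong_pos _
    (by rw [finrankAlong_beta_dvd N q L hq hqN]; exact hq.pos)

theorem heckeAlphaBarIntegral_dvd (hq : q.Prime) (hqN : q ∣ N) : HeckeAlphaBarIntegral L N q :=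
  AlongDegree25.isIntegral_of_finiteAlong _ (finiteAlong_alpha_dvd N q L hq hqN)

theorem heckeBetaBarIntegral_dvd (hq : q.Prime) (hqN : q ∣ N) : HeckeBetaBarIntegral L N q :=
  AlongDegree25.isIntegral_of_finiteAlong _ (finiteAlong_beta_dvd N q L hq hqN)

end Along

/-! ### the inputs over `ℚbar` -/

/-- the fundamental identity along `β`, `q ∣ N`. -/
theorem fundamentalIdentityAlong_beta_dvd (hq : q.Prime) (hqN : q ∣ N) :
    haveI := hasPrincipalDivisors_level N q
    FundamentalIdentityAlong Qb (heckeBetaBar Qb N q)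
      (heckeBetaBarIntegral_dvd N q Qb hq hqN) := by
  haveI := hasPrincipalDivisors_level N q
  exact FundIdentity19.fundamentalIdentityAlong (heckeBetaBar Qb N q)
    (heckeBetaBarIntegral_dvd N q Qb hq hqN)
    (finiteAlong_beta_dvd N q Qb hq hqN)
    (FbarFacts20.isGen_j N) (FbarFacts20.isGen_j (N * q))

/-- the norm formula along `α`, `q ∣ N`. -/
theorem normFormulaAlong_alpha_dvd (hq : q.Prime) (hqN : q ∣ N) :
    NormFormulaAlong Qb (heckeAlphaBar Qb N q) (finiteAlong_alpha_dvd N q Qb hq hqN) :=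
  NormFormula15.normFormulaAlong_of_isGen (heckeAlphaBar Qb N q)
    (finiteAlong_alpha_dvd N q Qb hq hqN) (FbarFacts20.isGen_j (N * q))

/-- **the inputs of the correspondence `α_* β^*` at level `N`, `q ∣ N` prime.** -/
theorem heckeInputsAlong_bar_dvd (hq : q.Prime) (hqN : q ∣ N) : HeckeInputsAlong Qb N q := by
  haveI := hasPrincipalDivisors_level N q
  exact heckeInputsAlong_intro (heckeAlphaBarIntegral_dvd N q Qb hq hqN)
    (heckeBetaBarIntegral_dvd N q Qb hq hqN)
    (fundamentalIdentityAlong_beta_dvd N q hq hqN)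
    (finiteAlong_alpha_dvd N q Qb hq hqN) (normFormulaAlong_alpha_dvd N q hq hqN)

/-- **the inputs at EVERY prime `q`** (dividing the level or not). -/
theorem heckeInputsAlong_bar_all (hq : q.Prime) : HeckeInputsAlong Qb N q := by
  by_cases hqN : q ∣ N
  · exact heckeInputsAlong_bar_dvd N q hq hqN
  · exact InputsFinal15.heckeInputsAlong_bar N q hq hqN

end Fermat.Agent.T1B.KumU6.Inputs
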