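/-
T1B (helper6), KUM-U2 for the ADOPTED orientation, part 1: **the transposed Hecke correspondence
`β_* α^*` on `J₀(N)(ℚbar)`** (the classical `U_q` for `q ∣ N`: on points `z ↦ ∑_j (z + j)/q`... read
on functions `f ↦ N_β(α f)`), as a TOTAL operator, twin of the Prelude's `heckeOperatorAlong`
(`= α_* β^*`):

* `HeckeInputsAlongT L N ℓ` : the inputs of `Pic0.correspondence α β` (`heckePic0BarTranspose`);
* `heckeUAlong L N ℓ`, `heckeUAlong_eq`, `heckeUAlong_of_not`;
* `heckeUBar N ℓ : Module.End ℤ (JZero N)` (`ℓ : Nat.Primes`);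
* `heckeInputsAlongT_bar_dvd / _all` : the inputs hold over `ℚbar` for every prime.
-/
import Mathlib
import Fermat.Agent.T1B.KumU6.Inputs

set_option autoImplicit false
set_option linter.style.haveILetI false

noncomputable section

open AlgebraicCurve ModularCurve

namespace Fermat.Agent.T1B.KumU6

section Def

variable (L : Type*) [Field L] [Algebra ℚ L] (N ℓ : ℕ) [NeZero N] [NeZero ℓ]

/-- the inputs of the TRANSPOSED correspondence `β_* α^*`. -/
def HeckeInputsAlongT : Prop :=
  ∃ (hα : HeckeAlphaBarIntegral L N ℓ) (_ : HeckeBetaBarIntegral L N ℓ)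
    (_ : HasPrincipalDivisors L (laurentBaseChange L (modularFunctionFieldFull (N * ℓ))))
    (hfin : FiniteAlong L (heckeBetaBar L N ℓ)),
    FundamentalIdentityAlong L (heckeAlphaBar L N ℓ) hα ∧
      NormFormulaAlong L (heckeBetaBar L N ℓ) hfin

open Classical in
/-- **the transposed Hecke operator `β_* α^*`** on `Pic⁰`, total (zero if the inputs fail; they
never do over `ℚbar`, see `heckeInputsAlongT_bar_all`). -/
def heckeUAlong :
    Pic0 L (laurentBaseChange L (modularFunctionFieldFull N)) →+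
      Pic0 L (laurentBaseChange L (modularFunctionFieldFull N)) :=
  if h : HeckeInputsAlongT L N ℓ then
    haveI := h.snd.snd.fst
    heckePic0BarTranspose h.fst h.snd.fst h.snd.snd.snd.snd.1 h.snd.snd.snd.fst h.snd.snd.snd.snd.2
  else 0

variable {L N ℓ}

theorem heckeInputsAlongT_intro (hα : HeckeAlphaBarIntegral L N ℓ)
    (hβ : HeckeBetaBarIntegral L N ℓ)
    [hP : HasPrincipalDivisors L (laurentBaseChange L (modularFunctionFieldFull (N * ℓ)))]
    (hFI : FundamentalIdentityAlong L (heckeAlphaBar L N ℓ) hα)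
    (hfin : FiniteAlong L (heckeBetaBar L N ℓ))
    (hN : NormFormulaAlong L (heckeBetaBar L N ℓ) hfin) : HeckeInputsAlongT L N ℓ :=
  ⟨hα, hβ, hP, hfin, hFI, hN⟩

theorem heckeUAlong_eq (hα : HeckeAlphaBarIntegral L N ℓ) (hβ : HeckeBetaBarIntegral L N ℓ)
    [HasPrincipalDivisors L (laurentBaseChange L (modularFunctionFieldFull (N * ℓ)))]
    (hFI : FundamentalIdentityAlong L (heckeAlphaBar L N ℓ) hα)
    (hfin : FiniteAlong L (heckeBetaBar L N ℓ))
    (hN : NormFormulaAlong L (heckeBetaBar L N ℓ) hfin) :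
    heckeUAlong L N ℓ = heckePic0BarTranspose hα hβ hFI hfin hN := by
  have h : HeckeInputsAlongT L N ℓ := heckeInputsAlongT_intro hα hβ hFI hfin hN
  rw [heckeUAlong, dif_pos h]

theorem heckeUAlong_of_not (h : ¬ HeckeInputsAlongT L N ℓ) : heckeUAlong L N ℓ = 0 := by
  rw [heckeUAlong, dif_neg h]

end Def

section Bar

variable (N : ℕ) [NeZero N]

/-- **the transposed Hecke operator on `J₀(N)(ℚbar)`** (`= U_q` for `q ∣ N`), twin of the Prelude's
`heckeOperatorBar`. -/
def heckeUBar (ℓ : Nat.Primes) : Module.End ℤ (JZero N) :=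
  haveI : NeZero (ℓ : ℕ) := ⟨ℓ.2.ne_zero⟩
  (heckeUAlong (AlgebraicClosure ℚ) N ℓ).toIntLinearMap

theorem heckeUBar_apply (ℓ : Nat.Primes) (x : JZero N) :
    heckeUBar N ℓ x =
      (haveI : NeZero (ℓ : ℕ) := ⟨ℓ.2.ne_zero⟩; heckeUAlong (AlgebraicClosure ℚ) N ℓ x) :=
  rfl

end Bar

section Inputs

open Fermat.Agent.ES.HECKE Fermat.Agent.ES.HECKE.InputsMain19 Fermat.Agent.RED.TOP

variable (N q : ℕ) [NeZero N] [NeZero q]

/-- the fundamental identity along `α`, `q ∣ N`. -/
theorem fundamentalIdentityAlong_alpha_dvd (hq : q.Prime) (hqN : q ∣ N) :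
    haveI := hasPrincipalDivisors_level N q
    FundamentalIdentityAlong Qb (heckeAlphaBar Qb N q)
      (Inputs.heckeAlphaBarIntegral_dvd N q Qb hq hqN) := by
  haveI := hasPrincipalDivisors_level N q
  exact FundIdentity19.fundamentalIdentityAlong (heckeAlphaBar Qb N q)
    (Inputs.heckeAlphaBarIntegral_dvd N q Qb hq hqN)
    (Inputs.finiteAlong_alpha_dvd N q Qb hq hqN)
    (FbarFacts20.isGen_j N) (FbarFacts20.isGen_j (N * q))

/-- the norm formula along `β`, `q ∣ N`. -/
theorem normFormulaAlong_beta_dvd (hq : q.Prime) (hqN : q ∣ N) :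
    NormFormulaAlong Qb (heckeBetaBar Qb N q) (Inputs.finiteAlong_beta_dvd N q Qb hq hqN) :=
  NormFormula15.normFormulaAlong_of_isGen (heckeBetaBar Qb N q)
    (Inputs.finiteAlong_beta_dvd N q Qb hq hqN) (FbarFacts20.isGen_j (N * q))

/-- **the inputs of `β_* α^*` at level `N`, `q ∣ N` prime.** -/
theorem heckeInputsAlongT_bar_dvd (hq : q.Prime) (hqN : q ∣ N) : HeckeInputsAlongT Qb N q := by
  haveI := hasPrincipalDivisors_level N q
  exact heckeInputsAlongT_intro (Inputs.heckeAlphaBarIntegral_dvd N q Qb hq hqN)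
    (Inputs.heckeBetaBarIntegral_dvd N q Qb hq hqN)
    (fundamentalIdentityAlong_alpha_dvd N q hq hqN)
    (Inputs.finiteAlong_beta_dvd N q Qb hq hqN) (normFormulaAlong_beta_dvd N q hq hqN)

/-- the inputs of `β_* α^*` at a prime `ℓ ∤ N`. -/
theorem heckeInputsAlongT_bar_not_dvd (hq : q.Prime) (hqN : ¬ q ∣ N) :
    HeckeInputsAlongT Qb N q := by
  haveI := hasPrincipalDivisors_level N q
  exact heckeInputsAlongT_intro (AlongDegree25.heckeAlphaBarIntegral Qb N q hq hqN)
    (AlongDegree25.heckeBetaBarIntegral Qb N q hq hqN)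
    (fundamentalIdentityAlong_alpha N q hq hqN)
    (AlongDegree25.finiteAlong_beta Qb N q hq hqN)
    (InputsFinal15.normFormulaAlong_beta N q hq hqN)

/-- **the inputs of `β_* α^*` at EVERY prime.** -/
theorem heckeInputsAlongT_bar_all (hq : q.Prime) : HeckeInputsAlongT Qb N q := by
  by_cases hqN : q ∣ N
  · exact heckeInputsAlongT_bar_dvd N q hq hqN
  · exact heckeInputsAlongT_bar_not_dvd N q hq hqN

end Inputs

end Fermat.Agent.T1B.KumU6
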