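/-
T1B brick 590 KUM-U2 (helper6), part (B): the double coset `Γ₀(N) diag(q,1) Γ₀(N)` for a prime
`q ∣ N`, in explicit form:

* representatives `betaU N q j = !![q, 0; N j, 1]`, `j : ZMod q`
  (`= diag(q,1) * repU j`, `repU j = !![1, 0; N j, 1] ∈ Γ₀(N)` the representatives of
  `Γ₀(N q) \ Γ₀(N)`);
* for `γ : Γ₀(N)`: `betaU j * γ = cocU γ j * betaU (permU γ j)` with `cocU γ j : Γ₀(N)`, uniquely;
* `(udcAdd φ) γ = ∑ j, φ (cocU γ j)` and `(udcMul χ) γ = ∏ j, χ (cocU γ j)`.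

This is the operator that the correspondence `α_* β^*` of the Prelude (`heckeOperatorBar N q`,
`q ∣ N`) induces on Kummer characters; on `S₂(Γ₀(N))` it is `f ↦ ∑_j f ∣₂ betaU j`, the adjoint
`U_q^* = W_N U_q W_N⁻¹` of `U_q`.

Mathlib + Prelude only.
-/
import Mathlib
import Fermat.Prelude.Def_ModularCurve_PeriodHomPair

set_option autoImplicit false

open Matrix CongruenceSubgroup
open scoped MatrixGroups

namespace Fermat.Agent.T1B.KumU6.Coset

/-! ### The representatives -/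

/-- The `q` representatives of `Γ₀(N) \ Γ₀(N) diag(q,1) Γ₀(N)`. -/
def betaU (N q : ℕ) (j : ZMod q) : Matrix (Fin 2) (Fin 2) ℤ :=
  !![(q : ℤ), 0; (N : ℤ) * (j.val : ℤ), 1]

theorem betaU_def (N q : ℕ) (j : ZMod q) :
    betaU N q j = !![(q : ℤ), 0; (N : ℤ) * (j.val : ℤ), 1] := rfl

theorem det_betaU (N q : ℕ) (j : ZMod q) : (betaU N q j).det = q := by
  simp [betaU, Matrix.det_fin_two_of]

/-- entries of an element of `SL(2, ℤ)`. -/
theorem sl_det (g : SL(2, ℤ)) :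
    (g : Matrix (Fin 2) (Fin 2) ℤ) 0 0 * (g : Matrix (Fin 2) (Fin 2) ℤ) 1 1
      - (g : Matrix (Fin 2) (Fin 2) ℤ) 0 1 * (g : Matrix (Fin 2) (Fin 2) ℤ) 1 0 = 1 := by
  rw [← Matrix.det_fin_two]; exact g.2

theorem gamma0_dvd {N : ℕ} {g : SL(2, ℤ)} (hg : g ∈ Gamma0 N) :
    (N : ℤ) ∣ (g : Matrix (Fin 2) (Fin 2) ℤ) 1 0 := by
  rw [Gamma0_mem] at hg
  exact (ZMod.intCast_zmod_eq_zero_iff_dvd _ N).mp hg

theorem mem_gamma0_of_dvd {N : ℕ} {g : SL(2, ℤ)}
    (hg : (N : ℤ) ∣ (g : Matrix (Fin 2) (Fin 2) ℤ) 1 0) : g ∈ Gamma0 N := by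
  rw [Gamma0_mem]
  exact (ZMod.intCast_zmod_eq_zero_iff_dvd _ N).mpr hg

variable {N q : ℕ} [hN : NeZero N] [hq : Fact q.Prime]

private theorem q_ne_zero : (q : ℤ) ≠ 0 := by exact_mod_cast hq.out.ne_zero

private theorem N_ne_zero : (N : ℤ) ≠ 0 := by exact_mod_cast hN.out

omit hN in
/-- Right cancellation of `betaU k`. -/
theorem mul_betaU_cancel {A B : Matrix (Fin 2) (Fin 2) ℤ} (k : ZMod q)
    (h : A * betaU N q k = B * betaU N q k) : A = B := by
  have h2 := congrArg (· * (betaU N q k).adjugate) h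
  simp only [Matrix.mul_assoc, Matrix.mul_adjugate, det_betaU] at h2
  ext a b
  have h3 := congrFun (congrFun h2 a) b
  simp only [Matrix.mul_smul, Matrix.mul_one, Matrix.smul_apply, smul_eq_mul] at h3
  exact mul_left_cancel₀ q_ne_zero h3

/-! ### Existence and uniqueness of the decomposition -/

omit hN hq in
/-- the arithmetic heart: the congruence defining the new index. -/
theorem key_dvd {a b c0 d jj kk Nq : ℤ} (hdet : a * d - b * ((q : ℤ) * Nq * c0) = 1)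
    (hk : (q : ℤ) ∣ kk - (jj * a + c0) * a) :
    (q : ℤ) ∣ (jj * a + c0) - kk * ((q : ℤ) * Nq * jj * b + d) := by
  obtain ⟨s, hs⟩ := hk
  refine ⟨-(jj * a + c0) * b * Nq * (c0 + a * jj) - s * ((q : ℤ) * Nq * jj * b + d), ?_⟩
  have hkk : kk = (jj * a + c0) * a + (q : ℤ) * s := by linear_combination hs
  rw [hkk]
  linear_combination (-(jj * a + c0)) * hdet

omit hN in
theorem exists_decompU_aux (hqN : q ∣ N) (M : Matrix (Fin 2) (Fin 2) ℤ) (hdet : M.det = 1)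
    (hMN : (N : ℤ) ∣ M 1 0) (j : ZMod q) :
    ∃ (k : ZMod q) (G : Matrix (Fin 2) (Fin 2) ℤ), G.det = 1 ∧ (N : ℤ) ∣ G 1 0 ∧
      betaU N q j * M = G * betaU N q k := by
  rw [Matrix.det_fin_two] at hdet
  obtain ⟨c0, hc0⟩ := hMN
  obtain ⟨N', hN'⟩ : (q : ℤ) ∣ (N : ℤ) := by exact_mod_cast hqN
  -- the index
  let k : ZMod q := ((((j.val : ℤ) * M 0 0 + c0) * M 0 0 : ℤ) : ZMod q)
  have hkdvd : (q : ℤ) ∣ (k.val : ℤ) - ((j.val : ℤ) * M 0 0 + c0) * M 0 0 := by
    rw [← ZMod.intCast_zmod_eq_zero_iff_dvd]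
    push_cast
    rw [ZMod.natCast_zmod_val]
    show k - _ = 0
    simp only [k]
    push_cast
    ring
  obtain ⟨t, ht⟩ : (q : ℤ) ∣ ((j.val : ℤ) * M 0 0 + c0)
      - (k.val : ℤ) * ((q : ℤ) * N' * (j.val : ℤ) * M 0 1 + M 1 1) := by
    refine key_dvd ?_ hkdvd
    rw [← hN', ← hc0]
    exact hdet
  rw [← hN'] at ht
  refine ⟨k, !![M 0 0 - M 0 1 * (N : ℤ) * (k.val : ℤ), (q : ℤ) * M 0 1;
      (N : ℤ) * t, (N : ℤ) * (j.val : ℤ) * M 0 1 + M 1 1], ?_, ?_, ?_⟩
  · rw [Matrix.det_fin_two_of]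
    linear_combination hdet + M 0 1 * hc0 + (M 0 1 * (N : ℤ)) * ht
  · simp only [Matrix.of_apply, Matrix.cons_val', Matrix.cons_val_one,
      Matrix.cons_val_zero, Matrix.cons_val_fin_one]
    exact Dvd.intro _ rfl
  · ext a b
    fin_cases a <;> fin_cases b <;>
      simp [betaU, Matrix.mul_apply, Fin.sum_univ_two, -ZMod.natCast_val]
    · ring
    · linear_combination hc0 + (N : ℤ) * ht

omit hN in
theorem exists_decompU (hqN : q ∣ N) (γ : Gamma0 N) (j : ZMod q) :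
    ∃ (k : ZMod q) (g : Gamma0 N),
      betaU N q j * ((γ : SL(2, ℤ)) : Matrix (Fin 2) (Fin 2) ℤ)
        = ((g : SL(2, ℤ)) : Matrix (Fin 2) (Fin 2) ℤ) * betaU N q k := by
  obtain ⟨k, G, hG1, hGN, hG⟩ := exists_decompU_aux hqN
    ((γ : SL(2, ℤ)) : Matrix (Fin 2) (Fin 2) ℤ) (γ : SL(2, ℤ)).2 (gamma0_dvd γ.2) j
  exact ⟨k, ⟨⟨G, hG1⟩, mem_gamma0_of_dvd hGN⟩, hG⟩

theorem decompU_unique (hqN : q ∣ N) {k k' : ZMod q} {g g' : Gamma0 N}
    (h : ((g : SL(2, ℤ)) : Matrix (Fin 2) (Fin 2) ℤ) * betaU N q k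
      = ((g' : SL(2, ℤ)) : Matrix (Fin 2) (Fin 2) ℤ) * betaU N q k') :
    k = k' ∧ g = g' := by
  have hk : k = k' := by
    have e10 := congrFun (congrFun h 1) 0
    have e11 := congrFun (congrFun h 1) 1
    simp [betaU, Matrix.mul_apply, Fin.sum_univ_two, -ZMod.natCast_val] at e10 e11
    obtain ⟨u, hu⟩ := gamma0_dvd g.2
    obtain ⟨u', hu'⟩ := gamma0_dvd g'.2
    obtain ⟨N', hN'⟩ : (q : ℤ) ∣ (N : ℤ) := by exact_mod_cast hqN
    have hdet := sl_det (g : SL(2, ℤ))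
    rw [hu, hu', ← e11] at e10
    have h1 : ((g : SL(2, ℤ)) : Matrix (Fin 2) (Fin 2) ℤ) 1 1 * ((k.val : ℤ) - (k'.val : ℤ))
        = (q : ℤ) * (u' - u) := by
      apply mul_left_cancel₀ (N_ne_zero (N := N))
      linear_combination e10
    have hNq : ((N : ℕ) : ZMod q) = 0 := (ZMod.natCast_eq_zero_iff N q).mpr hqN
    have had : ((((g : SL(2, ℤ)) : Matrix (Fin 2) (Fin 2) ℤ) 0 0 : ℤ) : ZMod q)
        * ((((g : SL(2, ℤ)) : Matrix (Fin 2) (Fin 2) ℤ) 1 1 : ℤ) : ZMod q) = 1 := by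
      have := congrArg (Int.cast : ℤ → ZMod q) hdet
      rw [hu] at this
      push_cast at this
      rw [hNq, zero_mul, mul_zero, sub_zero] at this
      exact this
    have h2 := congrArg (Int.cast : ℤ → ZMod q) h1
    push_cast at h2
    rw [ZMod.natCast_self, zero_mul, ZMod.natCast_zmod_val, ZMod.natCast_zmod_val] at h2
    have h3 : k - k' = 0 := by
      have : ((((g : SL(2, ℤ)) : Matrix (Fin 2) (Fin 2) ℤ) 0 0 : ℤ) : ZMod q)
          * (((((g : SL(2, ℤ)) : Matrix (Fin 2) (Fin 2) ℤ) 1 1 : ℤ) : ZMod q) * (k - k')) = 0 := by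
        rw [h2, mul_zero]
      rwa [← mul_assoc, had, one_mul] at this
    exact sub_eq_zero.mp h3
  subst hk
  exact ⟨rfl, Subtype.ext (Subtype.ext (mul_betaU_cancel k h))⟩

/-! ### `permU` and `cocU` -/

variable (hqN : q ∣ N)

/-- The index `k` with `B_j γ ∈ Γ₀(N) B_k`. -/
noncomputable def permU (γ : Gamma0 N) (j : ZMod q) : ZMod q :=
  (exists_decompU hqN γ j).choose

/-- The element `cocU γ j ∈ Γ₀(N)` with `B_j γ = cocU γ j * B_{permU γ j}`. -/
noncomputable def cocU (γ : Gamma0 N) (j : ZMod q) : Gamma0 N :=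
  (exists_decompU hqN γ j).choose_spec.choose

omit hN in
/-- the defining identity. -/
theorem betaU_mul (γ : Gamma0 N) (j : ZMod q) :
    betaU N q j * ((γ : SL(2, ℤ)) : Matrix (Fin 2) (Fin 2) ℤ)
      = ((cocU hqN γ j : SL(2, ℤ)) : Matrix (Fin 2) (Fin 2) ℤ) * betaU N q (permU hqN γ j) :=
  (exists_decompU hqN γ j).choose_spec.choose_spec

/-- uniqueness. -/
theorem eq_of_betaU_mul {γ : Gamma0 N} {j k : ZMod q} {g : Gamma0 N}
    (h : betaU N q j * ((γ : SL(2, ℤ)) : Matrix (Fin 2) (Fin 2) ℤ)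
      = ((g : SL(2, ℤ)) : Matrix (Fin 2) (Fin 2) ℤ) * betaU N q k) :
    permU hqN γ j = k ∧ cocU hqN γ j = g :=
  decompU_unique hqN ((betaU_mul hqN γ j).symm.trans h)

@[simp] theorem permU_one (j : ZMod q) : permU hqN (1 : Gamma0 N) j = j :=
  (eq_of_betaU_mul hqN (g := 1) (by simp)).1

@[simp] theorem cocU_one (j : ZMod q) : cocU hqN (1 : Gamma0 N) j = 1 :=
  (eq_of_betaU_mul hqN (k := j) (by simp)).2

omit hN in
private theorem betaU_mul_mul (γ δ : Gamma0 N) (j : ZMod q) :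
    betaU N q j * (((γ * δ : Gamma0 N) : SL(2, ℤ)) : Matrix (Fin 2) (Fin 2) ℤ)
      = (((cocU hqN γ j * cocU hqN δ (permU hqN γ j) : Gamma0 N) : SL(2, ℤ)) :
          Matrix (Fin 2) (Fin 2) ℤ) * betaU N q (permU hqN δ (permU hqN γ j)) := by
  rw [Subgroup.coe_mul, Subgroup.coe_mul, Matrix.SpecialLinearGroup.coe_mul,
    Matrix.SpecialLinearGroup.coe_mul, ← Matrix.mul_assoc,
    betaU_mul hqN, Matrix.mul_assoc, betaU_mul hqN, ← Matrix.mul_assoc]

theorem permU_mul (γ δ : Gamma0 N) (j : ZMod q) :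
    permU hqN (γ * δ) j = permU hqN δ (permU hqN γ j) :=
  (eq_of_betaU_mul hqN (betaU_mul_mul hqN γ δ j)).1

theorem cocU_mul (γ δ : Gamma0 N) (j : ZMod q) :
    cocU hqN (γ * δ) j = cocU hqN γ j * cocU hqN δ (permU hqN γ j) :=
  (eq_of_betaU_mul hqN (betaU_mul_mul hqN γ δ j)).2

/-- `permU γ` as a permutation of `ZMod q`. -/
noncomputable def permUEquiv (γ : Gamma0 N) : Equiv.Perm (ZMod q) where
  toFun := permU hqN γ
  invFun := permU hqN γ⁻¹
  left_inv j := by rw [← permU_mul, mul_inv_cancel, permU_one]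
  right_inv j := by rw [← permU_mul, inv_mul_cancel, permU_one]

@[simp] theorem permUEquiv_apply (γ : Gamma0 N) (j : ZMod q) :
    permUEquiv hqN γ j = permU hqN γ j := rfl

theorem permUEquiv_mul (γ δ : Gamma0 N) (j : ZMod q) :
    permUEquiv hqN (γ * δ) j = permUEquiv hqN δ (permUEquiv hqN γ j) := by
  simp [permU_mul]

theorem permU_pow (γ : Gamma0 N) (m : ℕ) (j : ZMod q) :
    permU hqN (γ ^ m) j = (permU hqN γ)^[m] j := by
  induction m generalizing j with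
  | zero => simp
  | succ m ih => rw [pow_succ', permU_mul, ih, Function.iterate_succ_apply]

theorem permUEquiv_pow (γ : Gamma0 N) (m : ℕ) (j : ZMod q) :
    permUEquiv hqN (γ ^ m) j = ((permUEquiv hqN γ) ^ m) j := by
  rw [permUEquiv_apply, permU_pow, ← Equiv.Perm.iterate_eq_pow]
  rfl

/-! ### The operators -/

/-- the double-coset operator `U_q^*` on additive homomorphisms `Γ₀(N) → A`. -/
noncomputable def udcAdd {A : Type*} [AddCommGroup A] (φ : Additive (Gamma0 N) →+ A) :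
    Additive (Gamma0 N) →+ A where
  toFun γ := ∑ j : ZMod q, φ (Additive.ofMul (cocU hqN (Additive.toMul γ) j))
  map_zero' := by simp
  map_add' γ δ := by
    have h1 : ∀ j : ZMod q,
        φ (Additive.ofMul (cocU hqN (Additive.toMul (γ + δ)) j))
          = φ (Additive.ofMul (cocU hqN (Additive.toMul γ) j))
            + φ (Additive.ofMul (cocU hqN (Additive.toMul δ)
                (permUEquiv hqN (Additive.toMul γ) j))) := by
      intro j
      rw [toMul_add, cocU_mul, ofMul_mul, map_add]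
      rfl
    simp only [h1, Finset.sum_add_distrib]
    congr 1
    exact Equiv.sum_comp (permUEquiv hqN (Additive.toMul γ))
      (fun j => φ (Additive.ofMul (cocU hqN (Additive.toMul δ) j)))

theorem udcAdd_apply {A : Type*} [AddCommGroup A] (φ : Additive (Gamma0 N) →+ A) (γ : Gamma0 N) :
    udcAdd hqN φ (Additive.ofMul γ) = ∑ j : ZMod q, φ (Additive.ofMul (cocU hqN γ j)) := rfl

/-- the double-coset operator `U_q^*` on characters `Γ₀(N) →* M`. -/
noncomputable def udcMul {M : Type*} [CommGroup M] (χ : Gamma0 N →* M) : Gamma0 N →* M where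
  toFun γ := ∏ j : ZMod q, χ (cocU hqN γ j)
  map_one' := by simp
  map_mul' γ δ := by
    simp only [cocU_mul, map_mul, Finset.prod_mul_distrib]
    congr 1
    exact Equiv.prod_comp (permUEquiv hqN γ) (fun j => χ (cocU hqN δ j))

theorem udcMul_apply {M : Type*} [CommGroup M] (χ : Gamma0 N →* M) (γ : Gamma0 N) :
    udcMul hqN χ γ = ∏ j : ZMod q, χ (cocU hqN γ j) := rfl

theorem udcAdd_add {A : Type*} [AddCommGroup A] (φ ψ : Additive (Gamma0 N) →+ A) :
    udcAdd hqN (φ + ψ) = udcAdd hqN φ + udcAdd hqN ψ := by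
  ext γ
  simp [udcAdd, Finset.sum_add_distrib]

theorem udcAdd_comp {A B : Type*} [AddCommGroup A] [AddCommGroup B] (f : A →+ B)
    (φ : Additive (Gamma0 N) →+ A) : udcAdd hqN (f.comp φ) = f.comp (udcAdd hqN φ) := by
  ext γ
  simp [udcAdd]

theorem udcMul_comp {M M' : Type*} [CommGroup M] [CommGroup M'] (f : M →* M')
    (χ : Gamma0 N →* M) : udcMul hqN (f.comp χ) = f.comp (udcMul hqN χ) := by
  ext γ
  simp [udcMul]

theorem udcMul_mul {M : Type*} [CommGroup M] (χ ψ : Gamma0 N →* M) :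
    udcMul hqN (χ * ψ) = udcMul hqN χ * udcMul hqN ψ := by
  ext γ
  simp [udcMul_apply, Finset.prod_mul_distrib]

theorem udcMul_one {M : Type*} [CommGroup M] : udcMul hqN (1 : Gamma0 N →* M) = 1 := by
  ext γ
  simp [udcMul_apply]

/-- `udcMul` is `udcAdd` read multiplicatively. -/
theorem udcMul_eq_toMul_udcAdd {M : Type*} [CommGroup M] (χ : Gamma0 N →* M) (γ : Gamma0 N) :
    udcMul hqN χ γ = Additive.toMul (udcAdd hqN (MonoidHom.toAdditive χ) (Additive.ofMul γ)) := by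
  rw [udcAdd_apply, toMul_sum, udcMul_apply]
  rfl

/-- The cocycle of a power is the sum along the path. -/
theorem map_cocU_pow {A : Type*} [AddCommGroup A] (φ : Additive (Gamma0 N) →+ A) (γ : Gamma0 N)
    (m : ℕ) (j : ZMod q) :
    φ (Additive.ofMul (cocU hqN (γ ^ m) j))
      = ∑ s ∈ Finset.range m, φ (Additive.ofMul (cocU hqN γ (((permUEquiv hqN γ) ^ s) j))) := by
  induction m with
  | zero => simp
  | succ m ih =>
    rw [pow_succ, cocU_mul, ofMul_mul, map_add, ih, Finset.sum_range_succ,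
      ← permUEquiv_apply, permUEquiv_pow]

/-! ### The representatives of `Γ₀(N q) \ Γ₀(N)` -/

/-- `repU j = !![1, 0; N j, 1]`. -/
def repU (N q : ℕ) (j : ZMod q) : SL(2, ℤ) :=
  ⟨!![1, 0; (N : ℤ) * (j.val : ℤ), 1], by simp [Matrix.det_fin_two_of]⟩

omit hN hq in
theorem coe_repU (j : ZMod q) :
    ((repU N q j : SL(2, ℤ)) : Matrix (Fin 2) (Fin 2) ℤ) = !![1, 0; (N : ℤ) * (j.val : ℤ), 1] := rfl

omit hN hq in
theorem repU_mem (j : ZMod q) : repU N q j ∈ Gamma0 N := by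
  apply mem_gamma0_of_dvd
  rw [coe_repU]
  simp

/-- `repU` as an element of `Γ₀(N)`. -/
def repG (N q : ℕ) (j : ZMod q) : Gamma0 N := ⟨repU N q j, repU_mem j⟩

omit hN hq in
/-- `B_j = diag(q, 1) * repU j`. -/
theorem betaU_eq_mul (j : ZMod q) :
    betaU N q j = !![(q : ℤ), 0; 0, 1] * ((repU N q j : SL(2, ℤ)) : Matrix (Fin 2) (Fin 2) ℤ) := by
  rw [coe_repU, betaU]
  ext a b
  fin_cases a <;> fin_cases b <;> simp [Matrix.mul_apply, Fin.sum_univ_two]

omit hN hq in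
theorem repU_mul_inv_one_zero (j k : ZMod q) :
    ((repU N q k * (repU N q j)⁻¹ : SL(2, ℤ)) : Matrix (Fin 2) (Fin 2) ℤ) 1 0
      = (N : ℤ) * ((k.val : ℤ) - (j.val : ℤ)) := by
  rw [Matrix.SpecialLinearGroup.coe_mul, Matrix.SpecialLinearGroup.SL2_inv_expl, coe_repU,
    Matrix.mul_apply, Fin.sum_univ_two]
  simp [repU]
  ring

/-- the `repU j` are pairwise inequivalent modulo `Γ₀(N q)`. -/
theorem eq_of_repU_mul_inv_mem {j k : ZMod q}
    (h : repU N q k * (repU N q j)⁻¹ ∈ Gamma0 (N * q)) : k = j := by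
  have h1 := gamma0_dvd h
  rw [repU_mul_inv_one_zero] at h1
  push_cast at h1
  have h2 : (q : ℤ) ∣ (k.val : ℤ) - (j.val : ℤ) :=
    (mul_dvd_mul_iff_left (N_ne_zero (N := N))).mp h1
  have h3 := (ZMod.intCast_zmod_eq_zero_iff_dvd _ q).mpr h2
  push_cast at h3
  rw [ZMod.natCast_zmod_val, ZMod.natCast_zmod_val] at h3
  exact sub_eq_zero.mp h3

end Fermat.Agent.T1B.KumU6.Coset
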