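/-
T1B brick 590 KUM-U2 (helper6), part (C): the analytic side of the correspondence `α_* β^*` at a
prime `q ∣ N`.

* `glBetaU j = glBeta q none * repU j ∈ GL(2, ℝ)⁺` (the matrix `!![q, 0; N j, 1]`),
  `betaMerU j : MerH →+* MerH`, `h ↦ h ∘ B_j`;
* the double coset relation `(h ∘ B_j) ∘ γ = (h ∘ cocU γ j) ∘ B_{permU γ j}` in `MerH`;
* the complete family `sigmaU j = (· ∘ repU j) ∘ anBar (N q)` of embeddings of `F̄_{Nq}` over `F̄_N`;
* `setupU`: the instance of `KummerHeckeAbs19.Setup` with index set `ZMod q`.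
-/
import Fermat.Agent.ES.HEQ.KummerHeckeMain19
import Fermat.Agent.T1B.KumU6.Coset
import Fermat.Agent.T1B.KumU6.Inputs

set_option autoImplicit false
set_option linter.style.haveILetI false
set_option linter.unusedSectionVars false

open UpperHalfPlane hiding I
open scoped Manifold MatrixGroups
open CongruenceSubgroup AlgebraicCurve

noncomputable section

namespace Fermat.Agent.T1B.KumU6.Analytic

open Fermat.Agent.X0 Fermat.Agent.X0.Analytic Fermat.Agent.X0.SurjPoint Fermat.Agent.ES.KUM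
open Fermat.Agent.ES.HEQ.DoubleCoset27 Fermat.Agent.ES.HEQ.BetaMer19
open Fermat.Agent.ES.HEQ.QExpMer19 Fermat.Agent.ES.HEQ.RepGamma19
open Fermat.Agent.ES.HEQ.RealBar19 Fermat.Agent.ES.HEQ.KummerHeckeAbs19
open Fermat.Agent.ES.HEQ.KummerHeckeMain19 ModularCurve
open Fermat.Agent.T1B.KumU6.Coset

variable {N q : ℕ} [hq : Fact q.Prime]

/-! ### The representatives in `GL(2, ℝ)⁺` -/

/-- `B_j = diag(q,1) * repU j` in `GL(2, ℝ)`. -/
def glBetaU (N q : ℕ) [Fact q.Prime] (j : ZMod q) : GL (Fin 2) ℝ :=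
  glBeta q none * Matrix.SpecialLinearGroup.mapGL ℝ (repU N q j)

theorem det_glBetaU_pos (j : ZMod q) : 0 < (glBetaU N q j).det.val :=
  det_mul_pos (det_glBeta_pos none) (det_mapGL_pos _)

theorem coe_glBetaU (j : ZMod q) :
    ((glBetaU N q j : GL (Fin 2) ℝ) : Matrix (Fin 2) (Fin 2) ℝ)
      = (betaU N q j).map (Int.cast : ℤ → ℝ) := by
  rw [glBetaU, Matrix.GeneralLinearGroup.coe_mul, coe_glBeta,
    Matrix.SpecialLinearGroup.mapGL_coe_matrix, betaU_eq_mul, beta_none]
  simp only [Matrix.map_mul_intCast]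
  rfl

/-- the double coset relation in `GL(2, ℝ)`. -/
theorem glBetaU_mul (hqN : q ∣ N) (γ : Gamma0 N) (j : ZMod q) :
    glBetaU N q j * Matrix.SpecialLinearGroup.mapGL ℝ (γ : SL(2, ℤ))
      = Matrix.SpecialLinearGroup.mapGL ℝ (cocU hqN γ j : SL(2, ℤ))
        * glBetaU N q (permU hqN γ j) := by
  apply Matrix.GeneralLinearGroup.ext
  intro a b
  have h := congrArg (fun M : Matrix (Fin 2) (Fin 2) ℤ => M.map (Int.cast : ℤ → ℝ))
    (betaU_mul hqN γ j)
  simp only [Matrix.map_mul_intCast] at h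
  simp only [Matrix.GeneralLinearGroup.coe_mul, coe_glBetaU,
    Matrix.SpecialLinearGroup.mapGL_coe_matrix]
  exact congrFun (congrFun h a) b

/-! ### `h ↦ h ∘ B_j` on `MerH` -/

/-- `h ↦ h ∘ B_j` on meromorphic functions. -/
def betaMerU (N q : ℕ) [Fact q.Prime] (j : ZMod q) : MerH →+* MerH :=
  glMer (glBetaU N q j) (det_glBetaU_pos j)

theorem betaMerU_apply (j : ZMod q) (h : MerH) :
    betaMerU N q j h = slMer (repU N q j) (betaMer q none h) := by
  unfold betaMerU betaMer glBetaU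
  rw [glMer_mul _ _ (det_glBeta_pos none) (det_mapGL_pos _), glMer_mapGL]

theorem betaMerU_const (j : ZMod q) (c : ℂ) :
    betaMerU N q j (algebraMap HolH MerH (algebraMap ℂ HolH c)) =
      algebraMap HolH MerH (algebraMap ℂ HolH c) :=
  glMer_const _ _ c

/-- **The double coset relation in `MerH`**:
`(h ∘ B_j) ∘ γ = (h ∘ cocU γ j) ∘ B_{permU γ j}`. -/
theorem slMer_betaMerU (hqN : q ∣ N) (γ : Gamma0 N) (j : ZMod q) (h : MerH) :
    slMer (γ : SL(2, ℤ)) (betaMerU N q j h)
      = betaMerU N q (permU hqN γ j) (slMer (cocU hqN γ j : SL(2, ℤ)) h) := by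
  unfold betaMerU
  rw [← glMer_mapGL (γ : SL(2, ℤ)), ← glMer_mapGL (cocU hqN γ j : SL(2, ℤ)), ← glMer_mul,
    ← glMer_mul]
  exact glMer_congr (glBetaU_mul hqN γ j) _ h

/-! ### The embeddings of `F̄_{Nq}` over `F̄_N` -/

variable [NeZero N]

/-- the complete family of embeddings `F̄_{Nq} → MerH` over `an`. -/
def sigmaU (N q : ℕ) [NeZero N] [Fact q.Prime] (j : ZMod q) : FF (N * q) →+* MerH :=
  (slMer (repU N q j)).comp (anBar (N * q))

theorem sigmaU_apply (j : ZMod q) (y : FF (N * q)) :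
    sigmaU N q j y = slMer (repU N q j) (anBar (N * q) y) := rfl

theorem sigmaU_alpha (j : ZMod q) (f : FF N) :
    sigmaU N q j (heckeAlphaBar Kbar N q f) = anBar N f := by
  rw [sigmaU_apply, anBar_alpha, slMer_anBar_of_mem N _ (repU_mem j)]

theorem sigmaU_beta (j : ZMod q) (f : FF N) :
    sigmaU N q j (heckeBetaBar Kbar N q f) = betaMerU N q j (anBar N f) := by
  rw [sigmaU_apply, anBar_beta, betaMerU_apply]

theorem sigmaU_injective : Function.Injective (sigmaU N q) := by
  intro i k h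
  have h1 : ∀ u : Rsub (N * q), compSL ((realizeData (N * q)).Θ u) (repU N q i) =
      compSL ((realizeData (N * q)).Θ u) (repU N q k) := by
    intro u
    have h2 := DFunLike.congr_fun h (u : FF (N * q))
    rw [sigmaU_apply, sigmaU_apply, anBar_coe, slMer_algebraMap, slMer_algebraMap] at h2
    have h3 := IsFractionRing.injective HolH MerH h2
    exact congrArg Subtype.val h3
  have h4 : repU N q k * (repU N q i)⁻¹ ∈ Gamma0 (N * q) :=
    Degree.mem_Gamma0_of_compSL_eq (N * q) (realizeData (N * q)) (cuspData (N * q)) _ _ h1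
  exact (eq_of_repU_mul_inv_mem h4).symm

/-! ### The `Setup` -/

variable (hqN : q ∣ N)

/-- the concrete instance of the abstract analytic interface, `q ∣ N`. -/
def setupU : Setup (K := Kbar) (heckeAlphaBar Kbar N q) (heckeBetaBar Kbar N q)
    (fun γ : Gamma0 N => permUEquiv hqN γ)
    (fun (γ : Gamma0 N) (j : ZMod q) => cocU hqN γ j) MerH ℂˣ where
  an := anBar N
  σ := sigmaU N q
  R := fun γ => slMer (γ : SL(2, ℤ))
  B := betaMerU N q
  c := constHom
  σ_alpha := sigmaU_alpha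
  σ_beta := sigmaU_beta
  σ_inj := sigmaU_injective
  card_eq := by
    rw [Inputs.finrankAlong_alpha_dvd N q Kbar hq.out hqN, ZMod.card]
  R_B := fun γ j h => slMer_betaMerU hqN γ j h
  R_c := fun γ a => slMer_const (γ : SL(2, ℤ)) (a : ℂ)
  B_c := fun j a => betaMerU_const j (a : ℂ)

end Fermat.Agent.T1B.KumU6.Analytic
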