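/-
T1B brick 590 KUM-U2 (helper6), part (D): **the Kummer map on `J₀(N)(ℚbar)[n]` intertwines the
Prelude's `heckeOperatorBar N q` (`q` prime, `q ∣ N`) with the double coset operator `udcMul`
(`= [Γ₀(N) diag(q,1) Γ₀(N)]`, representatives `!![q, 0; N j, 1]`) on characters of `Γ₀(N)`.**

The `q ∣ N` companion of `ES/HEQ/KummerHeckeMain19.kummer_hecke`, `KummerHeckeQ19.kumQAdd_hecke`,
`KummerHeckeQ19.kumQAdd_heckeOperatorBar` and `K2Final11.HeckeCompat`.
-/
import Fermat.Agent.ES.HEQ.KummerHeckeQ19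
import Fermat.Agent.T1B.KumU6.Analytic

set_option autoImplicit false
set_option linter.style.haveILetI false
set_option linter.unusedSectionVars false

open UpperHalfPlane hiding I
open scoped Manifold MatrixGroups
open CongruenceSubgroup AlgebraicCurve

noncomputable section

namespace Fermat.Agent.T1B.KumU6

open Fermat.Agent.X0 Fermat.Agent.X0.SurjPoint Fermat.Agent.ES.KUM
open Fermat.Agent.ES.HEQ.DoubleCoset27 Fermat.Agent.ES.HEQ.BetaMer19
open Fermat.Agent.ES.HEQ.RealBar19 Fermat.Agent.ES.HEQ.KummerHeckeAbs19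
open Fermat.Agent.ES.HEQ.KummerHeckeMain19 Fermat.Agent.ES.HEQ.KummerHeckeQ19 ModularCurve
open Fermat.Agent.ES.J.TateChar11
open Fermat.Agent.T1B.KumU6.Coset Fermat.Agent.T1B.KumU6.Analytic

section Main

variable {N q : ℕ} [NeZero N] [hq : Fact q.Prime] (hqN : q ∣ N)

/-- **Hecke-equivariance of the Kummer map at `q ∣ N`.** -/
theorem kummer_hecke_dvd {n : ℕ} {κ : ↥(Pic0.torsion Kbar (FF N) n) → (↥(Gamma0 N) →* ℂˣ)}
    (hκ : IsKummerMap N n κ) (x : ↥(Pic0.torsion Kbar (FF N) n)) :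
    κ ⟨heckeOperatorAlong Kbar N q (x : Pic0 Kbar (FF N)),
        heckeOperatorAlong_mem_torsion n x⟩ = udcMul hqN (κ x) := by
  classical
  obtain ⟨hα, hβ, hP, hfin, hFI, hN⟩ := Inputs.heckeInputsAlong_bar_dvd N q hq.out hqN
  haveI := hP
  obtain ⟨D, f, hD, hf, hDf⟩ := exists_rep_div n x
  obtain ⟨⟨h, hh0, hhn⟩, hchar⟩ := hκ x D f hD hf hDf
  -- the witness at `x`
  have w : Witness (setupU hqN) n f h (fun γ => κ x γ) := ⟨hhn, fun γ => hchar h hh0 hhn γ⟩
  have w' := w.hecke hfin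
  -- the Hecke transform
  set DT : Divisor.degZero (K := Kbar) (F := FF N) :=
    Pic0.degZeroCorrespondence (heckeBetaBar Kbar N q) (heckeAlphaBar Kbar N q) hβ hα hFI D with hDT
  have hTx : Pic0.mk DT = heckeOperatorAlong Kbar N q (x : Pic0 Kbar (FF N)) := by
    rw [heckeOperatorAlong_eq hα hβ hFI hfin hN, ← hD]
    rfl
  have hfT : normAlong (heckeAlphaBar Kbar N q) (heckeBetaBar Kbar N q f) ≠ 0 :=
    normAlong_ne_zero _ hfin ((map_ne_zero _).mpr hf)
  have hDTf : ∀ v : Place Kbar (FF N), ((n : ℤ) • (DT : Divisor Kbar (FF N))) v =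
      v.ord (normAlong (heckeAlphaBar Kbar N q) (heckeBetaBar Kbar N q f)) := by
    intro v
    have h1 : ((n : ℤ) • (DT : Divisor Kbar (FF N))) =
        Divisor.correspondence (heckeBetaBar Kbar N q) (heckeAlphaBar Kbar N q) hβ hα
          ((n : ℤ) • (D : Divisor Kbar (FF N))) := by
      rw [map_zsmul]
      rfl
    rw [h1]
    exact correspondence_apply_eq_ord _ _ hβ hα hfin hN hf hDf v
  obtain ⟨-, hchar'⟩ := hκ ⟨heckeOperatorAlong Kbar N q (x : Pic0 Kbar (FF N)),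
    heckeOperatorAlong_mem_torsion n x⟩ DT _ hTx hfT hDTf
  have hroot0 : heckeRoot (setupU hqN) h ≠ 0 := heckeRoot_ne_zero _ hh0
  ext1 γ
  have e1 := hchar' _ hroot0 w'.pow γ
  have e2 := w'.smul γ
  have e3 : constHom (κ ⟨heckeOperatorAlong Kbar N q (x : Pic0 Kbar (FF N)),
      heckeOperatorAlong_mem_torsion n x⟩ γ) = constHom (∏ j, κ x (cocU hqN γ j)) :=
    mul_right_cancel₀ hroot0 (e1.symm.trans e2)
  rw [udcMul_apply]
  exact constHom_injective e3

end Main

section Characters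

variable {N q : ℕ} [NeZero N] [hq : Fact q.Prime] (hqN : q ∣ N)

/-- The double coset operator `U_q^* = [Γ₀(N) diag(q,1) Γ₀(N)]` on the characters of `Γ₀(N)`,
additively (the `q ∣ N` companion of `TateChar11.tdcX`). -/
def udcX : X (Gamma0 N) →+ X (Gamma0 N) where
  toFun χ := Additive.ofMul (udcMul hqN (Additive.toMul χ))
  map_zero' := by
    show Additive.ofMul (udcMul hqN (1 : Gamma0 N →* ℂˣ)) = 0
    rw [udcMul_one]; rfl
  map_add' χ ψ := by
    show Additive.ofMul (udcMul hqN (Additive.toMul χ * Additive.toMul ψ))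
      = Additive.ofMul (udcMul hqN (Additive.toMul χ))
        + Additive.ofMul (udcMul hqN (Additive.toMul ψ))
    rw [udcMul_mul]; rfl

theorem udcX_apply (χ : X (Gamma0 N)) (γ : Gamma0 N) :
    (Additive.toMul (udcX hqN χ)) γ
      = ∏ j : ZMod q, (Additive.toMul χ) (cocU hqN γ j) := rfl

theorem toMul_udcX (χ : X (Gamma0 N)) :
    Additive.toMul (udcX hqN χ) = udcMul hqN (Additive.toMul χ) := rfl

end Characters

section Q

variable {N q : ℕ} [NeZero N] [hq : Fact q.Prime] (hqN : q ∣ N)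
variable (n : ℕ) [NeZero n] [Finite (Pic0.torsion ℂ (FC N) n)]

/-- **KUM-U2, multiplicative form**: the Kummer map `κ_n = kumCharOf ∘ torsionEquivC` on
`J₀(N)(ℚbar)[n]` intertwines `α_* β^*` at `q ∣ N` with `udcMul` on characters. -/
theorem kumQ_hecke_dvd (x : ↥(Pic0.torsion Kbar (FF N) n))
    (hx : heckeOperatorAlong Kbar N q (x : Pic0 Kbar (FF N)) ∈ Pic0.torsion Kbar (FF N) n) :
    kumQ N n ⟨heckeOperatorAlong Kbar N q (x : Pic0 Kbar (FF N)), hx⟩ =
      udcMul hqN (kumQ N n x) :=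
  kummer_hecke_dvd hqN (isKummerMap_kumQ N n) x

/-- **KUM-U2, additive form.** -/
theorem kumQAdd_hecke_dvd (x : ↥(Pic0.torsion Kbar (FF N) n))
    (hx : heckeOperatorAlong Kbar N q (x : Pic0 Kbar (FF N)) ∈ Pic0.torsion Kbar (FF N) n) :
    kumQAdd N n ⟨heckeOperatorAlong Kbar N q (x : Pic0 Kbar (FF N)), hx⟩ =
      udcX hqN (kumQAdd N n x) := by
  apply Additive.toMul.injective
  exact kumQ_hecke_dvd hqN n x hx

end Q

section Bar

variable {N : ℕ} [NeZero N] (q : Nat.Primes) (hqN : (q : ℕ) ∣ N)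
variable (n : ℕ) [NeZero n] [Finite (Pic0.torsion ℂ (FC N) n)]

/-- **KUM-U2 for the Prelude's `heckeOperatorBar`** on `tors (JZero N) n`, `q ∣ N`: the companion
of `KummerHeckeQ19.kumQAdd_heckeOperatorBar`. -/
theorem kumQAdd_heckeOperatorBar_dvd (x : ↥(tors (JZero N) n))
    (hx : heckeOperatorBar N q (x : JZero N) ∈ tors (JZero N) n) :
    haveI : Fact (q : ℕ).Prime := ⟨q.2⟩
    kumQAdd N n ⟨heckeOperatorBar N q (x : JZero N), hx⟩ = udcX hqN (kumQAdd N n x) := by
  haveI : Fact (q : ℕ).Prime := ⟨q.2⟩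
  exact kumQAdd_hecke_dvd hqN n x hx

end Bar

end Fermat.Agent.T1B.KumU6
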