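/-
T1B brick 590 KUM-U2 (helper6), part (E1): the double coset operator `udcAdd`
(`[Γ₀(N) diag(q,1) Γ₀(N)]`, `q ∣ N`) preserves parabolic homomorphisms and homomorphisms killing the
elements of finite order; `udcPar` on `parabolicHoms R Γ₀(N) A`.

The `q ∣ N` companion of `ES/HEQ/DoubleCosetPar27` (`isParabolicHom_tdcAdd`, `tdcPar`).
Mathlib + Prelude + `DoubleCoset27`/`DoubleCosetPar27` (generic lemmas) only.
-/
import Mathlib
import Fermat.Agent.ES.HEQ.DoubleCosetPar27
import Fermat.Agent.T1B.KumU6.Coset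

set_option autoImplicit false

open Matrix CongruenceSubgroup ModularCurve.Period
open scoped MatrixGroups

namespace Fermat.Agent.T1B.KumU6.Par

open Fermat.Agent.ES.HEQ.DoubleCoset27 Fermat.Agent.ES.HEQ.DoubleCosetPar27
open Fermat.Agent.T1B.KumU6.Coset

variable {N q : ℕ} [NeZero N] [hq : Fact q.Prime] (hqN : q ∣ N)

/-- `udcAdd φ γ = 0` as soon as `φ` kills all `cocU (γ^m) j` with `j` fixed by `permU (γ^m)`
(these are the `B_j γ^m B_j⁻¹`). -/
theorem udcAdd_apply_eq_zero {A : Type*} [AddCommGroup A] (φ : Additive (Gamma0 N) →+ A)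
    (γ : Gamma0 N)
    (h : ∀ (m : ℕ) (j : ZMod q), 0 < m → permU hqN (γ ^ m) j = j →
      φ (Additive.ofMul (cocU hqN (γ ^ m) j)) = 0) :
    udcAdd hqN φ (Additive.ofMul γ) = 0 := by
  classical
  rw [udcAdd_apply]
  refine sum_eq_zero_of_cycle_sums (permUEquiv hqN γ)
    (fun j => φ (Additive.ofMul (cocU hqN γ j))) ?_ Finset.univ (fun i _ => Finset.mem_univ _)
  intro j m hm hfix
  rw [← map_cocU_pow]
  refine h m j hm ?_
  rw [← permUEquiv_apply, permUEquiv_pow]
  exact hfix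

omit [NeZero N] in
/-- A fixed index: `cocU δ j = B_j δ B_j⁻¹` has the same trace as `δ`. -/
theorem trace_cocU_of_fixed {δ : Gamma0 N} {j : ZMod q} (h : permU hqN δ j = j) :
    ((cocU hqN δ j : SL(2, ℤ)) : Matrix (Fin 2) (Fin 2) ℤ).trace
      = ((δ : SL(2, ℤ)) : Matrix (Fin 2) (Fin 2) ℤ).trace := by
  have hb := betaU_mul hqN δ j
  rw [h] at hb
  have h2 := congrArg (fun M => (M * (betaU N q j).adjugate).trace) hb
  simp only [Matrix.mul_assoc, Matrix.mul_adjugate, det_betaU] at h2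
  rw [Matrix.trace_mul_comm, Matrix.mul_assoc, Matrix.adjugate_mul, det_betaU] at h2
  simp only [Matrix.mul_smul, Matrix.mul_one, Matrix.trace_smul, smul_eq_mul] at h2
  have hq0 : (q : ℤ) ≠ 0 := by exact_mod_cast hq.out.ne_zero
  exact (mul_left_cancel₀ hq0 h2).symm

/-- A fixed index: `cocU δ j` has finite order if `δ` has. -/
theorem cocU_pow_eq_one_of_fixed {δ : Gamma0 N} {j : ZMod q} (h : permU hqN δ j = j) {r : ℕ}
    (hr : δ ^ r = 1) : cocU hqN δ j ^ r = 1 := by
  have hfix : ∀ r : ℕ, permU hqN (δ ^ r) j = j := by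
    intro r
    rw [permU_pow]
    exact Function.iterate_fixed h r
  have hpow : ∀ r : ℕ, cocU hqN (δ ^ r) j = cocU hqN δ j ^ r := by
    intro r
    induction r with
    | zero => simp
    | succ r ih => rw [pow_succ, cocU_mul, ih, hfix r, pow_succ]
  rw [← hpow, hr, cocU_one]

/-- `udcAdd` preserves parabolic homomorphisms. -/
theorem isParabolicHom_udcAdd {A : Type*} [AddCommGroup A] {φ : Additive (Gamma0 N) →+ A}
    (hφ : IsParabolicHom (Gamma0 N) φ) : IsParabolicHom (Gamma0 N) (udcAdd hqN φ) := by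
  intro γ hγ
  refine udcAdd_apply_eq_zero hqN φ γ ?_
  intro m j _ hfix
  refine hφ _ ?_
  rw [trace_cocU_of_fixed hqN hfix, Subgroup.coe_pow]
  exact trace_pow_sq_eq_four _ hγ m

/-- `udcAdd` preserves the homomorphisms killing all elements of finite order. -/
theorem udcAdd_apply_eq_zero_of_pow_eq_one {A : Type*} [AddCommGroup A]
    {φ : Additive (Gamma0 N) →+ A}
    (hφ : ∀ (δ : Gamma0 N) (r : ℕ), 0 < r → δ ^ r = 1 → φ (Additive.ofMul δ) = 0)
    (γ : Gamma0 N) {r : ℕ} (hr0 : 0 < r) (hr : γ ^ r = 1) :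
    udcAdd hqN φ (Additive.ofMul γ) = 0 := by
  refine udcAdd_apply_eq_zero hqN φ γ ?_
  intro m j _ hfix
  refine hφ _ r hr0 ?_
  refine cocU_pow_eq_one_of_fixed hqN hfix ?_
  rw [← pow_mul, mul_comm, pow_mul, hr, one_pow]

/-- The double-coset operator `U_q^*` on `parabolicHoms R Γ₀(N) A`. -/
noncomputable def udcPar (R : Type*) [Semiring R] (A : Type*) [AddCommGroup A] [Module R A] :
    parabolicHoms R (Gamma0 N) A →ₗ[R] parabolicHoms R (Gamma0 N) A where
  toFun φ := ⟨udcAdd hqN φ.1, isParabolicHom_udcAdd hqN φ.2⟩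
  map_add' φ ψ := Subtype.ext (udcAdd_add hqN φ.1 ψ.1)
  map_smul' c φ := Subtype.ext <| by
    ext γ
    show udcAdd hqN (c • φ.1) γ = c • udcAdd hqN φ.1 γ
    simp [udcAdd, Finset.smul_sum]

@[simp] theorem coe_udcPar (R : Type*) [Semiring R] (A : Type*) [AddCommGroup A] [Module R A]
    (φ : parabolicHoms R (Gamma0 N) A) :
    ((udcPar hqN R A φ : parabolicHoms R (Gamma0 N) A) : Additive (Gamma0 N) →+ A)
      = udcAdd hqN φ.1 := rfl

end Fermat.Agent.T1B.KumU6.Par
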